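import Fermat.Agent.S41.Top

/-!
# S41 (level raising): the TOP interface, SQUARE variant (architect: helper23)

Same as `Top.lean`, except that the non-Eisenstein witness prime `ℓ₀` is in addition a SQUARE modulo
`2 N q` (delivered by L4: `BlockNonEisSq`), and the Betti block receives `ℓ₀` as a square mod `N`
(`BlockNewVectorSq`): the Ihara block (transfer shortcut) only controls `T_r` for `r ∤ 2 N q` a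
square mod `N`.

`Fermat.Agent.S41.Top2.result_of_blocks (hNE : BlockNonEisSq) (hNV : BlockNewVectorSq)` is the
FROZEN statement S41, verbatim.
-/

set_option autoImplicit false
open WeierstrassCurve WeierstrassCurve.Affine WeierstrassCurve.Affine.Point
open scoped CongruenceSubgroup
open WeierstrassCurve CongruenceSubgroup

namespace Fermat.Agent.S41.Top2

open Fermat.Agent.S41.Skel

noncomputable section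

/-- **Block L4 (non-Eisenstein), square variant**: the witness prime is a square mod `M`. -/
def BlockNonEisSq : Prop :=
  ∀ (E : WeierstrassCurve ℚ) [E.IsElliptic] (W : WeierstrassCurve ℤ), W.IsIntegralModelOf E →
    ∀ p : ℕ, p.Prime → p ≠ 2 → GaloisRepIsIrreducible (K := AlgebraicClosure ℚ) ℚ E p →
    ∀ M : ℕ, 0 < M → ∃ ℓ : ℕ, ℓ.Prime ∧ W.IsGoodPrimeFor ℓ ∧ ¬ ℓ ∣ M ∧ ℓ ≠ p ∧
      (∃ m : ℕ, ℓ ≡ m * m [MOD M]) ∧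
      ¬ ((p : ℤ) ∣ W.apOfModel ℓ - ((ℓ : ℤ) + 1))

/-- **Block "new vector", square variant**: as `Top.BlockNewVector`, the witness `ℓ₀` being moreover
a square mod `N`. -/
def BlockNewVectorSq : Prop :=
  ∀ (p N q : ℕ), p.Prime → p ≠ 2 → 0 < N → q.Prime → ¬ q ∣ N → q ≠ p →
  ∀ [NeZero (N * q)] (f : CuspForm (Gamma0 N) 2) (𝔪 : Ideal (integralClosure ℤ ℂ)),
    f.IsNormalizedEigenform → 𝔪.IsMaximal → (p : integralClosure ℤ ℂ) ∈ 𝔪 →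
  ∀ (b : ℕ → ℤ) (P : ℕ → Prop),
    (∀ ℓ : ℕ, ℓ.Prime → P ℓ → ¬ ℓ ∣ N → ℓ ≠ p →
      ∃ a : integralClosure ℤ ℂ, (a : ℂ) = ModularFormClass.qCoeff f ℓ ∧
        a - ((b ℓ : ℤ) : integralClosure ℤ ℂ) ∈ 𝔪) →
    (∃ a : integralClosure ℤ ℂ, (a : ℂ) = ModularFormClass.qCoeff f q ∧
      a ^ 2 - ((q : integralClosure ℤ ℂ) + 1) ^ 2 ∈ 𝔪) →
    (∃ ℓ : ℕ, ℓ.Prime ∧ P ℓ ∧ ¬ ℓ ∣ 2 * N * q ∧ ℓ ≠ p ∧
      (∃ lam : ℤ, lam ^ 2 ≡ (ℓ : ℤ) [ZMOD (N : ℤ)]) ∧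
      ¬ ((p : ℤ) ∣ b ℓ - ((ℓ : ℤ) + 1))) →
    ∃ (v : CuspForm (Gamma0 (N * q)) 2) (θ : ℕ → integralClosure ℤ ℂ)
      (𝔪' : Ideal (integralClosure ℤ ℂ)),
      v ≠ 0 ∧ 𝔪'.IsMaximal ∧ (p : integralClosure ℤ ℂ) ∈ 𝔪' ∧
      (∀ (ℓ : ℕ) (hℓ : ℓ.Prime) (hℓM : ¬ ℓ ∣ N * q), P ℓ → ℓ ≠ p →
        CuspForm.heckeTLin 2 hℓ hℓM v = ((θ ℓ : integralClosure ℤ ℂ) : ℂ) • v ∧
        θ ℓ - ((b ℓ : ℤ) : integralClosure ℤ ℂ) ∈ 𝔪') ∧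
      CuspForm.heckeULin 2 (Dvd.intro_left N rfl : q ∣ N * q)
        (CuspForm.heckeULin 2 (Dvd.intro_left N rfl : q ∣ N * q) v) = v

/-- the unrestricted Betti block implies the square variant. -/
theorem blockNewVectorSq_of_blockNewVector (h : Top.BlockNewVector) : BlockNewVectorSq := by
  intro p N q hp hp2 hN hq hqN hqp _ f 𝔪 hf hmax hpm b P hcong hLR hw
  obtain ⟨ℓ, h1, h2, h3, h4, -, h6⟩ := hw
  exact h p N q hp hp2 hN hq hqN hqp f 𝔪 hf hmax hpm b P hcong hLR ⟨ℓ, h1, h2, h3, h4, h6⟩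

/-- the square variant of L4 implies the plain one. -/
theorem blockNonEis_of_blockNonEisSq (h : BlockNonEisSq) : BlockNonEis := by
  intro E _ W hW p hp hp2 hirr M hM
  obtain ⟨ℓ, h1, h2, h3, h4, -, h6⟩ := h E W hW p hp hp2 hirr M hM
  exact ⟨ℓ, h1, h2, h3, h4, h6⟩

/-- a square mod `M` (in helper4's `ℕ`-shape) is a square mod any divisor `N` of `M`
(in the `ℤ`-shape consumed by the transfer shortcut). -/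
theorem exists_int_sq_of_nat_sq {ℓ M N : ℕ} (hNM : N ∣ M) (h : ∃ m : ℕ, ℓ ≡ m * m [MOD M]) :
    ∃ lam : ℤ, lam ^ 2 ≡ (ℓ : ℤ) [ZMOD (N : ℤ)] := by
  obtain ⟨m, hm⟩ := h
  refine ⟨(m : ℤ), ?_⟩
  have h1 : ((ℓ : ℕ) : ℤ) ≡ ((m * m : ℕ) : ℤ) [ZMOD (M : ℤ)] := Int.natCast_modEq_iff.mpr hm
  have h2 : ((ℓ : ℕ) : ℤ) ≡ ((m * m : ℕ) : ℤ) [ZMOD (N : ℤ)] :=
    Int.ModEq.of_dvd (Int.natCast_dvd_natCast.mpr hNM) h1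
  rw [pow_two]
  push_cast at h2
  exact h2.symm

/-- **S41 from the two blocks, square variant** (the statement is the frozen one, verbatim). -/
theorem result_of_blocks (hNE : BlockNonEisSq) (hNV : BlockNewVectorSq)
    (E : WeierstrassCurve ℚ) [E.IsElliptic] {W : WeierstrassCurve ℤ} (hW : W.IsIntegralModelOf E)
    {p N q' : ℕ} (hp : p.Prime) (hp2 : p ≠ 2) (hN : 0 < N) (hq' : q'.Prime) (hq'N : ¬ q' ∣ N) (hq'p : q' ≠ p)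
    (hirr : GaloisRepIsIrreducible (K := AlgebraicClosure ℚ) ℚ E p)
    (f : CuspForm (CongruenceSubgroup.Gamma0 N) 2) (𝔪 : Ideal (integralClosure ℤ ℂ))
    (hf : f.IsNormalizedEigenform) (hmax : 𝔪.IsMaximal) (hpm : (p : integralClosure ℤ ℂ) ∈ 𝔪)
    (hcong : ∀ ℓ : ℕ, ℓ.Prime → W.IsGoodPrimeFor ℓ → ¬ ℓ ∣ N → ℓ ≠ p →
      ∃ a : integralClosure ℤ ℂ, (a : ℂ) = ModularFormClass.qCoeff f ℓ ∧
        a - ((W.apOfModel ℓ : ℤ) : integralClosure ℤ ℂ) ∈ 𝔪)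
    (hLR : ∃ a : integralClosure ℤ ℂ, (a : ℂ) = ModularFormClass.qCoeff f q' ∧
      a ^ 2 - ((q' : integralClosure ℤ ℂ) + 1) ^ 2 ∈ 𝔪) :
    ∃ (g : CuspForm (CongruenceSubgroup.Gamma0 (N * q')) 2) (𝔪' : Ideal (integralClosure ℤ ℂ)),
      g.IsNormalizedEigenform ∧ 𝔪'.IsMaximal ∧ (p : integralClosure ℤ ℂ) ∈ 𝔪' ∧
      (∀ ℓ : ℕ, ℓ.Prime → W.IsGoodPrimeFor ℓ → ¬ ℓ ∣ N * q' → ℓ ≠ p →
        ∃ a : integralClosure ℤ ℂ, (a : ℂ) = ModularFormClass.qCoeff g ℓ ∧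
          a - ((W.apOfModel ℓ : ℤ) : integralClosure ℤ ℂ) ∈ 𝔪') ∧
      g.IsNewAt q' := by
  have : NeZero (N * q') := ⟨Nat.mul_ne_zero hN.ne' hq'.ne_zero⟩
  obtain ⟨ℓ₀, hℓ₀, hgood₀, hℓ₀M, hℓ₀p, hsq₀, hℓ₀ne⟩ :=
    hNE E W hW p hp hp2 hirr (2 * N * q') (Nat.mul_pos (Nat.mul_pos two_pos hN) hq'.pos)
  have hsqN : ∃ lam : ℤ, lam ^ 2 ≡ (ℓ₀ : ℤ) [ZMOD (N : ℤ)] :=
    exists_int_sq_of_nat_sq (Dvd.intro_left 2 rfl |>.mul_right q') hsq₀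
  obtain ⟨v, θ, 𝔪', hv0, hmax', hp', hT, hU⟩ := hNV p N q' hp hp2 hN hq' hq'N hq'p f 𝔪 hf hmax hpm
    (fun ℓ => W.apOfModel ℓ) (fun ℓ => W.IsGoodPrimeFor ℓ ∧ ℓ ≠ p)
    (fun ℓ hℓ hP hℓN hℓp => hcong ℓ hℓ hP.1 hℓN hℓp) hLR
    ⟨ℓ₀, hℓ₀, ⟨hgood₀, hℓ₀p⟩, hℓ₀M, hℓ₀p, hsqN, hℓ₀ne⟩
  obtain ⟨g, hg, hgT, hgq⟩ := exists_eigenform_of_vector (M := N * q') hq' (Dvd.intro_left N rfl)
    (fun ℓ => W.IsGoodPrimeFor ℓ ∧ ℓ ≠ p) (fun ℓ => ((θ ℓ : integralClosure ℤ ℂ) : ℂ)) v hv0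
    (fun ℓ hℓ hℓM hQ => (hT ℓ hℓ hℓM hQ hQ.2).1) hU
  refine ⟨g, 𝔪', hg, hmax', hp', ?_, hgq⟩
  intro ℓ hℓ hgood hℓM hℓp
  exact ⟨θ ℓ, (hgT ℓ hℓ hℓM ⟨hgood, hℓp⟩).symm, (hT ℓ hℓ hℓM ⟨hgood, hℓp⟩ hℓp).2⟩

end

end Fermat.Agent.S41.Top2
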