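import Fermat.Statements.S41
import Fermat.Agent.S41.EigenLib
import Fermat.Agent.S49.DeligneSerre
import Fermat.Agent.S16.Lower.LatticeRank

/-!
# S41 (level raising): top skeleton (architect: helper23)

`result_of_blocks` proves the FROZEN statement S41 from two closed blocks:

* `BlockNonEis`  (L4): for `E[p]` irreducible the system `a_ℓ(W) mod p` is not Eisenstein:
  for every `M > 0` there is a good prime `ℓ ∤ M`, `ℓ ≠ p`, with `a_ℓ(W) ≢ ℓ + 1 (mod p)`.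
* `BlockNewVector` (L1 + L3 + L5 + count, everything Betti): from a level-`N` eigenform `f`
  congruent mod `𝔪` to an integral system `b` on a set `P` of primes, with the level-raising
  congruence at `q` and ONE non-Eisenstein prime, a NONZERO cusp form `v` of level `N q` with
  `T_ℓ v = θ_ℓ v` (`ℓ ∈ P`, `ℓ ∤ N q p`), `θ_ℓ ≡ b_ℓ (mod 𝔪')` and `U_q (U_q v) = v`.

The passage from `v` to a normalised eigenform `g` (common eigenvector of ALL `T_ℓ`, `U_ℓ` inside the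
stable subspace cut out by these equations, then normalisation) is done HERE (lead's block L2),
with the S49 tools on main.
-/

set_option autoImplicit false
open WeierstrassCurve WeierstrassCurve.Affine WeierstrassCurve.Affine.Point
open scoped CongruenceSubgroup
open WeierstrassCurve CongruenceSubgroup

namespace Fermat.Agent.S41.Skel

noncomputable section

/-- **Block L4 (non-Eisenstein).** -/
def BlockNonEis : Prop :=
  ∀ (E : WeierstrassCurve ℚ) [E.IsElliptic] (W : WeierstrassCurve ℤ), W.IsIntegralModelOf E →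
    ∀ p : ℕ, p.Prime → p ≠ 2 → GaloisRepIsIrreducible (K := AlgebraicClosure ℚ) ℚ E p →
    ∀ M : ℕ, 0 < M → ∃ ℓ : ℕ, ℓ.Prime ∧ W.IsGoodPrimeFor ℓ ∧ ¬ ℓ ∣ M ∧ ℓ ≠ p ∧
      ¬ ((p : ℤ) ∣ W.apOfModel ℓ - ((ℓ : ℤ) + 1))

/-- **Block "new vector"** (all of the Betti side: degeneracy maps, Ihara, duality, counting,
Deligne–Serre lifting, Eichler–Shimura transport). -/
def BlockNewVector : Prop :=
  ∀ (p N q : ℕ), p.Prime → p ≠ 2 → 0 < N → q.Prime → ¬ q ∣ N → q ≠ p →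
  ∀ [NeZero (N * q)] (f : CuspForm (Gamma0 N) 2) (𝔪 : Ideal (integralClosure ℤ ℂ)),
    f.IsNormalizedEigenform → 𝔪.IsMaximal → (p : integralClosure ℤ ℂ) ∈ 𝔪 →
  ∀ (b : ℕ → ℤ) (P : ℕ → Prop),
    (∀ ℓ : ℕ, ℓ.Prime → P ℓ → ¬ ℓ ∣ N → ℓ ≠ p →
      ∃ a : integralClosure ℤ ℂ, (a : ℂ) = ModularFormClass.qCoeff f ℓ ∧
        a - ((b ℓ : ℤ) : integralClosure ℤ ℂ) ∈ 𝔪) →
    (∃ a : integralClosure ℤ ℂ, (a : ℂ) = ModularFormClass.qCoeff f q ∧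
      a ^ 2 - ((q : integralClosure ℤ ℂ) + 1) ^ 2 ∈ 𝔪) →
    (∃ ℓ : ℕ, ℓ.Prime ∧ P ℓ ∧ ¬ ℓ ∣ N * q ∧ ℓ ≠ p ∧ ¬ ((p : ℤ) ∣ b ℓ - ((ℓ : ℤ) + 1))) →
    ∃ (v : CuspForm (Gamma0 (N * q)) 2) (θ : ℕ → integralClosure ℤ ℂ)
      (𝔪' : Ideal (integralClosure ℤ ℂ)),
      v ≠ 0 ∧ 𝔪'.IsMaximal ∧ (p : integralClosure ℤ ℂ) ∈ 𝔪' ∧
      (∀ (ℓ : ℕ) (hℓ : ℓ.Prime) (hℓM : ¬ ℓ ∣ N * q), P ℓ → ℓ ≠ p →
        CuspForm.heckeTLin 2 hℓ hℓM v = ((θ ℓ : integralClosure ℤ ℂ) : ℂ) • v ∧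
        θ ℓ - ((b ℓ : ℤ) : integralClosure ℤ ℂ) ∈ 𝔪') ∧
      CuspForm.heckeULin 2 (Dvd.intro_left N rfl : q ∣ N * q)
        (CuspForm.heckeULin 2 (Dvd.intro_left N rfl : q ∣ N * q) v) = v

/-! ### Block L2, done here: from the vector to the normalised eigenform -/

section Eigenform

variable {M : ℕ} [NeZero M]

/-- all Hecke operators of level `M`, indexed by the primes. -/
def heckeAll (ℓ : {ℓ : ℕ // ℓ.Prime}) : Module.End ℂ (CuspForm (Gamma0 M) 2) :=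
  if h : (ℓ : ℕ) ∣ M then CuspForm.heckeULin 2 h else CuspForm.heckeTLin 2 ℓ.2 h

theorem heckeAll_mem (ℓ : {ℓ : ℕ // ℓ.Prime}) :
    heckeAll (M := M) ℓ ∈ CuspForm.heckeGenerators M 2 (∅ : Set ℕ) := by
  unfold heckeAll
  split_ifs with h
  · exact CuspForm.heckeULin_mem_heckeGenerators ℓ.2 h (Set.notMem_empty _)
  · exact CuspForm.heckeTLin_mem_heckeGenerators ℓ.2 h (Set.notMem_empty _)

theorem heckeAll_commute (ℓ ℓ' : {ℓ : ℕ // ℓ.Prime}) :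
    Commute (heckeAll (M := M) ℓ) (heckeAll (M := M) ℓ') :=
  CuspForm.commute_of_mem_heckeGenerators (heckeAll_mem ℓ) (heckeAll_mem ℓ')

theorem heckeT_commute_all {ℓ : ℕ} (hℓ : ℓ.Prime) (hℓM : ¬ ℓ ∣ M) (i : {ℓ : ℕ // ℓ.Prime}) :
    Commute (CuspForm.heckeTLin 2 hℓ hℓM) (heckeAll (M := M) i) :=
  CuspForm.commute_of_mem_heckeGenerators
    (CuspForm.heckeTLin_mem_heckeGenerators hℓ hℓM (Set.notMem_empty _)) (heckeAll_mem i)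

theorem heckeU_commute_all {q : ℕ} (hq : q.Prime) (hqM : q ∣ M) (i : {ℓ : ℕ // ℓ.Prime}) :
    Commute (CuspForm.heckeULin 2 hqM) (heckeAll (M := M) i) :=
  CuspForm.commute_of_mem_heckeGenerators
    (CuspForm.heckeULin_mem_heckeGenerators hq hqM (Set.notMem_empty _)) (heckeAll_mem i)

/-- **L2.** A nonzero cusp form of level `M` which is an eigenvector of the `T_ℓ` for `ℓ` in a set
`Q` of primes not dividing `M`, and is fixed by `U_q²` for a prime `q ∣ M`, yields a normalised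
eigenform with the same `T_ℓ`-eigenvalues on `Q` and `a_q² = 1`. -/
theorem exists_eigenform_of_vector {q : ℕ} (hq : q.Prime) (hqM : q ∣ M)
    (Q : ℕ → Prop) (θ : ℕ → ℂ) (v : CuspForm (Gamma0 M) 2) (hv : v ≠ 0)
    (hT : ∀ (ℓ : ℕ) (hℓ : ℓ.Prime) (hℓM : ¬ ℓ ∣ M), Q ℓ →
      CuspForm.heckeTLin 2 hℓ hℓM v = θ ℓ • v)
    (hU : CuspForm.heckeULin 2 hqM (CuspForm.heckeULin 2 hqM v) = v) :
    ∃ g : CuspForm (Gamma0 M) 2, g.IsNormalizedEigenform ∧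
      (∀ ℓ : ℕ, ℓ.Prime → ¬ ℓ ∣ M → Q ℓ → ModularFormClass.qCoeff g ℓ = θ ℓ) ∧
      ModularFormClass.qCoeff g q ^ 2 = 1 := by
  classical
  haveI : FiniteDimensional ℂ (CuspForm (Gamma0 M) 2) :=
    Fermat.Agent.S16.Lower.LatticeRank.finiteDimensional_cuspForm M
  -- the stable subspace
  let Wsub : Submodule ℂ (CuspForm (Gamma0 M) 2) :=
    { carrier := {x | (∀ (ℓ : ℕ) (hℓ : ℓ.Prime) (hℓM : ¬ ℓ ∣ M), Q ℓ →
          CuspForm.heckeTLin 2 hℓ hℓM x = θ ℓ • x) ∧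
          CuspForm.heckeULin 2 hqM (CuspForm.heckeULin 2 hqM x) = x}
      zero_mem' := ⟨fun ℓ hℓ hℓM _ => by simp, by simp⟩
      add_mem' := by
        rintro x y ⟨hx1, hx2⟩ ⟨hy1, hy2⟩
        refine ⟨fun ℓ hℓ hℓM hQ => ?_, ?_⟩
        · rw [map_add, hx1 ℓ hℓ hℓM hQ, hy1 ℓ hℓ hℓM hQ, smul_add]
        · rw [map_add, map_add, hx2, hy2]
      smul_mem' := by
        rintro c x ⟨hx1, hx2⟩
        refine ⟨fun ℓ hℓ hℓM hQ => ?_, ?_⟩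
        · rw [map_smul, hx1 ℓ hℓ hℓM hQ, smul_comm]
        · rw [map_smul, map_smul, hx2] }
  have hvW : v ∈ Wsub := ⟨hT, hU⟩
  have hWne : Wsub ≠ ⊥ := fun h => hv (by simpa [h] using hvW)
  have hstab : ∀ i, ∀ x ∈ Wsub, heckeAll (M := M) i x ∈ Wsub := by
    rintro i x ⟨hx1, hx2⟩
    refine ⟨fun ℓ hℓ hℓM hQ => ?_, ?_⟩
    · have hc := (heckeT_commute_all hℓ hℓM i).eq
      have := LinearMap.congr_fun hc x
      rw [Module.End.mul_apply, Module.End.mul_apply] at this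
      rw [this, hx1 ℓ hℓ hℓM hQ, map_smul]
    · have hc := (heckeU_commute_all hq hqM i).eq
      have h1 : ∀ y, CuspForm.heckeULin 2 hqM (heckeAll (M := M) i y) =
          heckeAll (M := M) i (CuspForm.heckeULin 2 hqM y) := by
        intro y
        have := LinearMap.congr_fun hc y
        rwa [Module.End.mul_apply, Module.End.mul_apply] at this
      rw [h1, h1, hx2]
  obtain ⟨w, hwW, hw0, θ', hθ'⟩ := Fermat.Agent.S49.exists_common_eigenvector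
    (heckeAll (M := M)) heckeAll_commute (Module.finrank ℂ Wsub) Wsub rfl hWne hstab
  let c : ℕ → ℂ := fun n => if h : n.Prime then θ' ⟨n, h⟩ else 0
  have hTw : ∀ (ℓ : ℕ) (hℓ : ℓ.Prime) (hℓM : ¬ ℓ ∣ M),
      CuspForm.heckeTLin 2 hℓ hℓM w = c ℓ • w := by
    intro ℓ hℓ hℓM
    have := hθ' ⟨ℓ, hℓ⟩
    unfold heckeAll at this
    rw [dif_neg (show ¬ ((⟨ℓ, hℓ⟩ : {ℓ : ℕ // ℓ.Prime}) : ℕ) ∣ M from hℓM)] at this
    simp only [c, dif_pos hℓ]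
    exact this
  have hUw : ∀ (r : ℕ) (_ : r.Prime) (hrM : r ∣ M), CuspForm.heckeULin 2 hrM w = c r • w := by
    intro r hr hrM
    have := hθ' ⟨r, hr⟩
    unfold heckeAll at this
    rw [dif_pos (show ((⟨r, hr⟩ : {ℓ : ℕ // ℓ.Prime}) : ℕ) ∣ M from hrM)] at this
    simp only [c, dif_pos hr]
    exact this
  obtain ⟨g, hg, hgc, -⟩ :=
    Fermat.Agent.S41.EigenLib.exists_isNormalizedEigenform_of_eigenvector w hw0 c hTw hUw
  have hsmul_inj : ∀ a b : ℂ, a • w = b • w → a = b := fun a b h => by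
    by_contra hne
    have : (a - b) • w = 0 := by rw [sub_smul, h, sub_self]
    rcases smul_eq_zero.mp this with h1 | h1
    · exact hne (sub_eq_zero.mp h1)
    · exact hw0 h1
  refine ⟨g, hg, ?_, ?_⟩
  · intro ℓ hℓ hℓM hQ
    rw [hgc ℓ hℓ]
    apply hsmul_inj
    rw [← hTw ℓ hℓ hℓM, hwW.1 ℓ hℓ hℓM hQ]
  · rw [hgc q hq]
    apply hsmul_inj
    rw [one_smul, pow_two, mul_smul, ← hUw q hq hqM, ← map_smul, ← hUw q hq hqM]
    exact hwW.2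

end Eigenform

/-- **S41 from the two blocks** (the statement is the frozen one, verbatim). -/
theorem result_of_blocks (hNE : BlockNonEis) (hNV : BlockNewVector)
    (E : WeierstrassCurve ℚ) [E.IsElliptic] {W : WeierstrassCurve ℤ} (hW : W.IsIntegralModelOf E)
    {p N q' : ℕ} (hp : p.Prime) (hp2 : p ≠ 2) (hN : 0 < N) (hq' : q'.Prime) (hq'N : ¬ q' ∣ N) (hq'p : q' ≠ p)
    (hirr : GaloisRepIsIrreducible (K := AlgebraicClosure ℚ) ℚ E p)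
    (f : CuspForm (CongruenceSubgroup.Gamma0 N) 2) (𝔪 : Ideal (integralClosure ℤ ℂ))
    (hf : f.IsNormalizedEigenform) (hmax : 𝔪.IsMaximal) (hpm : (p : integralClosure ℤ ℂ) ∈ 𝔪)
    (hcong : ∀ ℓ : ℕ, ℓ.Prime → W.IsGoodPrimeFor ℓ → ¬ ℓ ∣ N → ℓ ≠ p →
      ∃ a : integralClosure ℤ ℂ, (a : ℂ) = ModularFormClass.qCoeff f ℓ ∧
        a - ((W.apOfModel ℓ : ℤ) : integralClosure ℤ ℂ) ∈ 𝔪)
    (hLR : ∃ a : integralClosure ℤ ℂ, (a : ℂ) = ModularFormClass.qCoeff f q' ∧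
      a ^ 2 - ((q' : integralClosure ℤ ℂ) + 1) ^ 2 ∈ 𝔪) :
    ∃ (g : CuspForm (CongruenceSubgroup.Gamma0 (N * q')) 2) (𝔪' : Ideal (integralClosure ℤ ℂ)),
      g.IsNormalizedEigenform ∧ 𝔪'.IsMaximal ∧ (p : integralClosure ℤ ℂ) ∈ 𝔪' ∧
      (∀ ℓ : ℕ, ℓ.Prime → W.IsGoodPrimeFor ℓ → ¬ ℓ ∣ N * q' → ℓ ≠ p →
        ∃ a : integralClosure ℤ ℂ, (a : ℂ) = ModularFormClass.qCoeff g ℓ ∧
          a - ((W.apOfModel ℓ : ℤ) : integralClosure ℤ ℂ) ∈ 𝔪') ∧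
      g.IsNewAt q' := by
  haveI : NeZero (N * q') := ⟨Nat.mul_ne_zero hN.ne' hq'.ne_zero⟩
  obtain ⟨ℓ₀, hℓ₀, hgood₀, hℓ₀M, hℓ₀p, hℓ₀ne⟩ :=
    hNE E W hW p hp hp2 hirr (N * q') (Nat.mul_pos hN hq'.pos)
  obtain ⟨v, θ, 𝔪', hv0, hmax', hp', hT, hU⟩ := hNV p N q' hp hp2 hN hq' hq'N hq'p f 𝔪 hf hmax hpm
    (fun ℓ => W.apOfModel ℓ) (fun ℓ => W.IsGoodPrimeFor ℓ ∧ ℓ ≠ p) 
    (fun ℓ hℓ hP hℓN hℓp => hcong ℓ hℓ hP.1 hℓN hℓp) hLR
    ⟨ℓ₀, hℓ₀, ⟨hgood₀, hℓ₀p⟩, hℓ₀M, hℓ₀p, hℓ₀ne⟩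
  obtain ⟨g, hg, hgT, hgq⟩ := exists_eigenform_of_vector (M := N * q') hq' (Dvd.intro_left N rfl)
    (fun ℓ => W.IsGoodPrimeFor ℓ ∧ ℓ ≠ p) (fun ℓ => ((θ ℓ : integralClosure ℤ ℂ) : ℂ)) v hv0
    (fun ℓ hℓ hℓM hQ => (hT ℓ hℓ hℓM hQ hQ.2).1) hU
  refine ⟨g, 𝔪', hg, hmax', hp', ?_, hgq⟩
  intro ℓ hℓ hgood hℓM hℓp
  exact ⟨θ ℓ, (hgT ℓ hℓ hℓM ⟨hgood, hℓp⟩).symm, (hT ℓ hℓ hℓM ⟨hgood, hℓp⟩ hℓp).2⟩

end

end Fermat.Agent.S41.Skel
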