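import Fermat.Agent.S41.Skeleton

/-!
# S41 (level raising): the TOP interface (architect: helper23) — supersedes `Skeleton.result_of_blocks`

Same as `Skeleton.lean`, except that the non-Eisenstein witness handed to the Betti side avoids the
prime `2` as well (`ℓ₀ ∤ 2 N q`): the Ihara block only controls `T_r` for `r ∤ 2 N q`.

`Fermat.Agent.S41.Top.result_of_blocks (hNE : Skel.BlockNonEis) (hNV : BlockNewVector)` is the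
FROZEN statement S41, verbatim.
-/

set_option autoImplicit false
open WeierstrassCurve WeierstrassCurve.Affine WeierstrassCurve.Affine.Point
open scoped CongruenceSubgroup
open WeierstrassCurve CongruenceSubgroup

namespace Fermat.Agent.S41.Top

open Fermat.Agent.S41.Skel

noncomputable section

/-- **Block "new vector"** (all of the Betti side). Input: a level-`N` eigenform `f` congruent mod
`𝔪 ∋ p` to an INTEGER system `b` on a set `P` of primes, the level-raising congruence at `q`, and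
one non-Eisenstein prime `ℓ₀ ∈ P`, `ℓ₀ ∤ 2 N q`, `ℓ₀ ≠ p`, `b ℓ₀ ≢ ℓ₀ + 1 (mod p)`.
Output: a NONZERO cusp form `v` of level `N q`, algebraic integers `θ ℓ`, a maximal ideal `𝔪' ∋ p`
with `T_ℓ v = θ_ℓ v`, `θ_ℓ ≡ b_ℓ (mod 𝔪')` (`ℓ ∈ P`, `ℓ ∤ N q`, `ℓ ≠ p`) and `U_q (U_q v) = v`. -/
def BlockNewVector : Prop :=
  ∀ (p N q : ℕ), p.Prime → p ≠ 2 → 0 < N → q.Prime → ¬ q ∣ N → q ≠ p →
  ∀ [NeZero (N * q)] (f : CuspForm (Gamma0 N) 2) (𝔪 : Ideal (integralClosure ℤ ℂ)),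
    f.IsNormalizedEigenform → 𝔪.IsMaximal → (p : integralClosure ℤ ℂ) ∈ 𝔪 →
  ∀ (b : ℕ → ℤ) (P : ℕ → Prop),
    (∀ ℓ : ℕ, ℓ.Prime → P ℓ → ¬ ℓ ∣ N → ℓ ≠ p →
      ∃ a : integralClosure ℤ ℂ, (a : ℂ) = ModularFormClass.qCoeff f ℓ ∧
        a - ((b ℓ : ℤ) : integralClosure ℤ ℂ) ∈ 𝔪) →
    (∃ a : integralClosure ℤ ℂ, (a : ℂ) = ModularFormClass.qCoeff f q ∧
      a ^ 2 - ((q : integralClosure ℤ ℂ) + 1) ^ 2 ∈ 𝔪) →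
    (∃ ℓ : ℕ, ℓ.Prime ∧ P ℓ ∧ ¬ ℓ ∣ 2 * N * q ∧ ℓ ≠ p ∧ ¬ ((p : ℤ) ∣ b ℓ - ((ℓ : ℤ) + 1))) →
    ∃ (v : CuspForm (Gamma0 (N * q)) 2) (θ : ℕ → integralClosure ℤ ℂ)
      (𝔪' : Ideal (integralClosure ℤ ℂ)),
      v ≠ 0 ∧ 𝔪'.IsMaximal ∧ (p : integralClosure ℤ ℂ) ∈ 𝔪' ∧
      (∀ (ℓ : ℕ) (hℓ : ℓ.Prime) (hℓM : ¬ ℓ ∣ N * q), P ℓ → ℓ ≠ p →
        CuspForm.heckeTLin 2 hℓ hℓM v = ((θ ℓ : integralClosure ℤ ℂ) : ℂ) • v ∧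
        θ ℓ - ((b ℓ : ℤ) : integralClosure ℤ ℂ) ∈ 𝔪') ∧
      CuspForm.heckeULin 2 (Dvd.intro_left N rfl : q ∣ N * q)
        (CuspForm.heckeULin 2 (Dvd.intro_left N rfl : q ∣ N * q) v) = v

/-- **S41 from the two blocks** (the statement is the frozen one, verbatim). -/
theorem result_of_blocks (hNE : BlockNonEis) (hNV : BlockNewVector)
    (E : WeierstrassCurve ℚ) [E.IsElliptic] {W : WeierstrassCurve ℤ} (hW : W.IsIntegralModelOf E)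
    {p N q' : ℕ} (hp : p.Prime) (hp2 : p ≠ 2) (hN : 0 < N) (hq' : q'.Prime) (hq'N : ¬ q' ∣ N) (hq'p : q' ≠ p)
    (hirr : GaloisRepIsIrreducible (K := AlgebraicClosure ℚ) ℚ E p)
    (f : CuspForm (CongruenceSubgroup.Gamma0 N) 2) (𝔪 : Ideal (integralClosure ℤ ℂ))
    (hf : f.IsNormalizedEigenform) (hmax : 𝔪.IsMaximal) (hpm : (p : integralClosure ℤ ℂ) ∈ 𝔪)
    (hcong : ∀ ℓ : ℕ, ℓ.Prime → W.IsGoodPrimeFor ℓ → ¬ ℓ ∣ N → ℓ ≠ p →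
      ∃ a : integralClosure ℤ ℂ, (a : ℂ) = ModularFormClass.qCoeff f ℓ ∧
        a - ((W.apOfModel ℓ : ℤ) : integralClosure ℤ ℂ) ∈ 𝔪)
    (hLR : ∃ a : integralClosure ℤ ℂ, (a : ℂ) = ModularFormClass.qCoeff f q' ∧
      a ^ 2 - ((q' : integralClosure ℤ ℂ) + 1) ^ 2 ∈ 𝔪) :
    ∃ (g : CuspForm (CongruenceSubgroup.Gamma0 (N * q')) 2) (𝔪' : Ideal (integralClosure ℤ ℂ)),
      g.IsNormalizedEigenform ∧ 𝔪'.IsMaximal ∧ (p : integralClosure ℤ ℂ) ∈ 𝔪' ∧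
      (∀ ℓ : ℕ, ℓ.Prime → W.IsGoodPrimeFor ℓ → ¬ ℓ ∣ N * q' → ℓ ≠ p →
        ∃ a : integralClosure ℤ ℂ, (a : ℂ) = ModularFormClass.qCoeff g ℓ ∧
          a - ((W.apOfModel ℓ : ℤ) : integralClosure ℤ ℂ) ∈ 𝔪') ∧
      g.IsNewAt q' := by
  have : NeZero (N * q') := ⟨Nat.mul_ne_zero hN.ne' hq'.ne_zero⟩
  obtain ⟨ℓ₀, hℓ₀, hgood₀, hℓ₀M, hℓ₀p, hℓ₀ne⟩ :=
    hNE E W hW p hp hp2 hirr (2 * N * q') (Nat.mul_pos (Nat.mul_pos two_pos hN) hq'.pos)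
  obtain ⟨v, θ, 𝔪', hv0, hmax', hp', hT, hU⟩ := hNV p N q' hp hp2 hN hq' hq'N hq'p f 𝔪 hf hmax hpm
    (fun ℓ => W.apOfModel ℓ) (fun ℓ => W.IsGoodPrimeFor ℓ ∧ ℓ ≠ p)
    (fun ℓ hℓ hP hℓN hℓp => hcong ℓ hℓ hP.1 hℓN hℓp) hLR
    ⟨ℓ₀, hℓ₀, ⟨hgood₀, hℓ₀p⟩, hℓ₀M, hℓ₀p, hℓ₀ne⟩
  obtain ⟨g, hg, hgT, hgq⟩ := exists_eigenform_of_vector (M := N * q') hq' (Dvd.intro_left N rfl)
    (fun ℓ => W.IsGoodPrimeFor ℓ ∧ ℓ ≠ p) (fun ℓ => ((θ ℓ : integralClosure ℤ ℂ) : ℂ)) v hv0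
    (fun ℓ hℓ hℓM hQ => (hT ℓ hℓ hℓM hQ hQ.2).1) hU
  refine ⟨g, 𝔪', hg, hmax', hp', ?_, hgq⟩
  intro ℓ hℓ hgood hℓM hℓp
  exact ⟨θ ℓ, (hgT ℓ hℓ hℓM ⟨hgood, hℓp⟩).symm, (hT ℓ hℓ hℓM ⟨hgood, hℓp⟩ hℓp).2⟩

end

end Fermat.Agent.S41.Top
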